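/-
S33 / GAMMA (helper6): **separability of the special-fibre chart** `ξ = (j̄^(q²) - j̄)^(q+1)` on
`F̄_{N'}` (`sepb` of GAMMA-RED / DICT): `F̄_{N'} / k(ξ)` is separable.

* `s33sx_isSeparable_pow` : generic: if `F / K(y)` is separable and `(m : K) ≠ 0` then
  `F / K(y ^ m)` is separable;
* `s33sx_sepb` : `Algebra.IsSeparable ↥k⟮t2sfXi k q N'⟯ (TaBar k N')` for `(N' : k) ≠ 0`.
-/
import Fermat.Agent.Lib.T2.Inst.SpecialFibre
import Fermat.Agent.Lib.T2.Inst.GoodRedFF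

set_option autoImplicit false
set_option linter.style.haveILetI false
set_option linter.unusedSectionVars false

namespace Fermat.Agent.S33

open AlgebraicCurve IntermediateField Polynomial Fermat.Agent.Curve Fermat.Agent.T1 Fermat.Agent.T2

section Generic

variable {K F : Type*} [Field K] [Field F] [Algebra K F]

/-- `F / K(y ^ m)` is separable if `F / K(y)` is and `m` is invertible in `K` -/
theorem s33sx_isSeparable_pow (y : F) (hy0 : y ≠ 0) (m : ℕ) (hm : (m : K) ≠ 0)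
    [Algebra.IsSeparable ↥K⟮y⟯ F] : Algebra.IsSeparable ↥K⟮y ^ m⟯ F := by
  have hξ0 : (⟨y ^ m, mem_adjoin_simple_self K _⟩ : ↥K⟮y ^ m⟯) ≠ 0 := by
    intro h0
    exact pow_ne_zero m hy0 (congrArg (Subtype.val : ↥K⟮y ^ m⟯ → F) h0)
  have hm' : ((m : ℕ) : ↥K⟮y ^ m⟯) ≠ 0 := by
    intro h0
    apply hm
    have h1 : algebraMap K ↥K⟮y ^ m⟯ (m : K) = 0 := by rw [map_natCast]; exact h0
    exact (map_eq_zero _).mp h1
  refine t2gr_isSeparable_of_root (x := y ^ m) (j := y)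
    (X ^ m - C (⟨y ^ m, mem_adjoin_simple_self K _⟩ : ↥K⟮y ^ m⟯))
    (separable_X_pow_sub_C _ hm' hξ0) ?_
  rw [map_sub, map_pow, aeval_X, aeval_C]
  show y ^ m - y ^ m = 0
  rw [sub_self]

end Generic

section Bar

variable (k : Type*) [Field k] [IsAlgClosed k] (q : ℕ) [hq : Fact q.Prime] [CharP k q]
  (N' : ℕ) [NeZero N']

/-- **`sepb`**: `F̄_{N'}` is separable over `k(ξ)`, `ξ = (j̄^(q²) - j̄)^(q+1)` -/
theorem s33sx_sepb (hN' : (N' : k) ≠ 0) :
    Algebra.IsSeparable ↥k⟮t2sfXi k q N'⟯ (TaBar k N') := by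
  haveI : Algebra.IsSeparable ↥k⟮taBarJ k N'⟯ (TaBar k N') := ta_bar_isSeparable k N' hN'
  haveI : Algebra.IsSeparable ↥k⟮taBarJ k N' ^ (q * q) - taBarJ k N'⟯ (TaBar k N') :=
    t2gr_isSeparable_AS q (q * q) (dvd_mul_right q q) (taBarJ k N')
  have h0 : taBarJ k N' ^ (q * q) - taBarJ k N' ≠ 0 :=
    t2gr_x_ne_zero (ta_bar_isFunctionFieldGen k N') (t2sf_two_le q)
  have hm : ((q + 1 : ℕ) : k) ≠ 0 := by
    rw [Nat.cast_add, CharP.cast_eq_zero k q, zero_add, Nat.cast_one]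
    exact one_ne_zero
  rw [t2sfXi_eq]
  exact s33sx_isSeparable_pow _ h0 (q + 1) hm

end Bar

end Fermat.Agent.S33
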